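import Fermat.Agent.BAD.Twin.Branched
import Fermat.Agent.BAD.Modular.FFLemmas

/-!
# The charts of a twin and the bad reduction data
-/

set_option autoImplicit false
set_option linter.unusedSectionVars false
set_option linter.style.haveILetI false

noncomputable section

open AlgebraicCurve ModularCurve IntermediateField Fermat.Agent.RED

namespace Fermat.Agent.BAD

open Fermat.Agent.BAD.Modular

theorem finrank_adjoin_map {L E F : Type*} [Field L] [Field E] [Field F] [Algebra L E]
    [Algebra L F] (γ : E →ₐ[L] F) (x : E) :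
    Module.finrank L⟮γ x⟯ F = finrankAlong L γ * Module.finrank L⟮x⟯ E := by
  have hmap : L⟮x⟯.map γ = L⟮γ x⟯ := by rw [adjoin_map, Set.image_singleton]
  have htop : (⊤ : IntermediateField L E).map γ = γ.fieldRange := (AlgHom.fieldRange_eq_map γ).symm
  have hle : L⟮γ x⟯ ≤ γ.fieldRange := adjoin_simple_le_iff.mpr ⟨x, rfl⟩
  have h1 := IntermediateField.relfinrank_mul_relfinrank hle (le_top (a := γ.fieldRange))
  rw [IntermediateField.relfinrank_top_right, IntermediateField.relfinrank_top_right] at h1
  have h2 : IntermediateField.relfinrank L⟮γ x⟯ γ.fieldRange = Module.finrank L⟮x⟯ E := by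
    rw [← hmap, ← htop, IntermediateField.relfinrank_map_map,
      IntermediateField.relfinrank_top_right]
  have h3 : Module.finrank γ.fieldRange F = finrankAlong L γ := by
    letI := algebraAlong γ
    refine (Algebra.finrank_eq_of_equiv_equiv
      (RingEquiv.ofBijective γ.toRingHom.rangeRestrictField
        ⟨fun a b h => γ.injective (congrArg Subtype.val h),
          fun ⟨_, a, ha⟩ => ⟨a, Subtype.ext ha⟩⟩ : E ≃+* γ.fieldRange)
      (RingEquiv.refl F) ?_).symm
    ext a
    rfl
  rw [← h1, h2, h3, mul_comm]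

theorem mem_coordRing_map {L E F : Type*} [Field L] [Field E] [Field F] [Algebra L E]
    [Algebra L F] (γ : E →ₐ[L] F) {x f : E} (hf : f ∈ coordRing L x) :
    γ f ∈ coordRing L (γ x) := by
  rw [mem_coordRing] at hf ⊢
  have h := hf.map γ.toRingHom
  rwa [show γ.toRingHom.comp (coordEval L x) = coordEval L (γ x) from
    Polynomial.ringHom_ext (fun c => by simp) (by simp)] at h

theorem transcendental_map {L E F : Type*} [Field L] [Field E] [Field F] [Algebra L E]
    [Algebra L F] (γ : E →ₐ[L] F) {x : E} (hx : Transcendental L x) :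
    Transcendental L (γ x) := fun h =>
  hx ((isAlgebraic_algHom_iff γ γ.injective).mp h)

namespace Twin

variable {L k : Type} [Field L] [Field k] {A : ValuationSubring L} {π : A →+* k} {q : ℕ}
  [NeZero q] {F E : Type} [Field F] [Field E] [Algebra L F] [Algebra L E]
  {C : IntermediateField k (LaurentSeries k)} (T : Twin π q F E C)
  (hn : ∃ x ∈ A.nonunits, x ≠ 0) [Fact q.Prime] [CharP k q] [PerfectRing k q]
  (hC : CoeffStable C)
  [IsAlgClosed L] [IsAlgClosed k] [FF.IsFunctionField L F] [FF.IsFunctionField k C]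

/-- The coordinate of `F` attached to a coordinate of `E`. -/
def coordU (x : T.W) : F := T.a x * T.b x

/-- Its reduction. -/
def coordUbar (x : T.W) : C := T.redW x ^ (q + 1)

theorem red_coordU (x : T.W) (hx : qExpand k q (T.serW x) = T.serW x ^ q) (i : Fin 2) :
    T.Red i (T.coordU x) (T.coordUbar x : C) := by
  have e : (((T.coordUbar x : C) : LaurentSeries k)) = T.serW x ^ (q + 1) := by
    rw [coordUbar, SubmonoidClass.coe_pow]; rfl
  rw [e]
  fin_cases i
  · rw [pow_succ', ← hx]
    exact (T.red0_a x).mul (T.red0_b x)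
  · rw [pow_succ, ← hx]
    exact (T.red1_a x).mul (T.red1_b x)

theorem relFrob_redW (x : T.W) (hx : qExpand k q (T.serW x) = T.serW x ^ q) :
    T.relFrob (T.redW x) = T.redW x ^ q :=
  Subtype.ext (by rw [coe_relFrob, SubmonoidClass.coe_pow]; exact hx)

/-- One chart. -/
theorem chart (x : T.W) (hx : qExpand k q (T.serW x) = T.serW x ^ q)
    (hxb : Transcendental k (T.redW x)) (hxE : Transcendental L (x : E))
    (hdeg : Module.finrank L⟮(x : E)⟯ E ≤ Module.finrank k⟮T.redW x⟯ C)
    (hpoles : NoCancel L (T.a x) (T.b x))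
    (hlift : ∀ c ∈ coordRing k (T.redW x), ∃ w : T.W,
      (w : E) ∈ coordRing L (x : E) ∧ T.redW w = c)
    (d : ℕ) (hd : Module.finrank k⟮T.coordUbar x⟯ C = d) :
    Chart (T.badBase hn hC) (T.coordU x) (T.coordUbar x) d := by
  have hq := T.two_le
  have hta := transcendental_map T.a hxE
  have htb := transcendental_map T.b hxE
  have hpoles' := hpoles.symm
  have ha0 : T.a x ≠ 0 := fun h0 => hta (h0 ▸ isAlgebraic_zero)
  have hb0 : T.b x ≠ 0 := fun h0 => htb (h0 ▸ isAlgebraic_zero)
  have hu := transcendental_mul_of_noCancel hta hb0 hpoles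
  have hub : Transcendental k (T.coordUbar x) := fun h => hxb (h.of_pow (Nat.succ_pos q))
  have hred : ∀ i, (T.badBase hn hC).red i (T.coordU x) = T.coordUbar x := fun i =>
    T.twoBranch_red_eq hn (T.red_coordU x hx i)
  refine
    { u_mem := ((T.badBase hn hC).mem_O).mpr fun i => (T.red_coordU x hx i).1
      red_u := hred
      transcendental_u := hu
      finite_F := FF.finiteDimensional_adjoin hu
      finite_C := FF.finiteDimensional_adjoin hub
      finrank_le := ?_
      coord := coordData_of_functionField hub hd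
      lift₀ := ?_
      lift₁ := ?_
      exists_t := ?_ }
  · rw [coordU, finrank_adjoin_mul_of_noCancel hta htb hpoles, finrank_adjoin_map,
      finrank_adjoin_map, T.finrank_a, T.finrank_b, coordUbar,
      finrank_adjoin_pow (n := q + 1) hxb (Nat.succ_ne_zero q)]
    have := Nat.mul_le_mul_left (q + 1) hdeg
    omega
  · intro c hc
    rw [coordUbar, coordRing_pow (Nat.succ_ne_zero q)] at hc
    obtain ⟨w, hw, rfl⟩ := hlift c hc
    refine ⟨T.a w, mem_coordRing_mul_of_noCancel hb0 hpoles (mem_coordRing_map T.a hw),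
      ((T.badBase hn hC).mem_O).mpr ?_, T.twoBranch_red_eq hn (T.red0_a w),
      T.twoBranch_red_eq hn (i := 1) (c := T.relFrob (T.redW w)) (T.red1_a w)⟩
    intro i
    fin_cases i
    exacts [(T.red0_a w).1, (T.red1_a w).1]
  · intro c hc
    rw [coordUbar, coordRing_pow (Nat.succ_ne_zero q)] at hc
    obtain ⟨w, hw, rfl⟩ := hlift c hc
    refine ⟨T.b w, ?_, ((T.badBase hn hC).mem_O).mpr ?_, T.twoBranch_red_eq hn (T.red1_b w),
      T.twoBranch_red_eq hn (i := 0) (c := T.relFrob (T.redW w)) (T.red0_b w)⟩
    · rw [coordU, mul_comm]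
      exact mem_coordRing_mul_of_noCancel ha0 hpoles' (mem_coordRing_map T.b hw)
    · intro i
      fin_cases i
      exacts [(T.red0_b w).1, (T.red1_b w).1]
  · refine ⟨T.redW x, ?_, T.relFrob_redW x hx, fun h => hxb ?_⟩
    · rw [coordUbar, coordRing_pow (Nat.succ_ne_zero q)]
      exact self_mem_coordRing _ _
    · refine ⟨Polynomial.X ^ (q * q) - Polynomial.X,
        FiniteField.X_pow_card_sub_X_ne_zero k (Nat.one_lt_mul_iff.mpr (by omega)), ?_⟩
      rw [map_sub, map_pow, Polynomial.aeval_X]
      exact sub_eq_zero.mpr h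

/-- The hypotheses on the coordinate for both charts. -/
structure CoordHyp (x : T.W) : Prop where
  frob : qExpand k q (T.serW x) = T.serW x ^ q
  transcendental : Transcendental k (T.redW x)
  transcendentalE : Transcendental L (x : E)
  finrank_le : Module.finrank L⟮(x : E)⟯ E ≤ Module.finrank k⟮T.redW x⟯ C
  noCancel : NoCancel L (T.a x) (T.b x)
  lift : ∀ c ∈ coordRing k (T.redW x), ∃ w : T.W,
    (w : E) ∈ coordRing L (x : E) ∧ T.redW w = c

variable {T}

theorem CoordHyp.transcendental_coordU {x : T.W} (hx : T.CoordHyp x) :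
    Transcendental L (T.coordU x) :=
  transcendental_mul_of_noCancel (transcendental_map T.a hx.transcendentalE)
    (fun h0 => transcendental_map T.b hx.transcendentalE (h0 ▸ isAlgebraic_zero)) hx.noCancel

theorem CoordHyp.coordUbar_inv {x y : T.W} (hy : (y : E) = (x : E)⁻¹) (hx : T.redW x ≠ 0) :
    T.coordUbar y = (T.coordUbar x)⁻¹ := by
  have h : T.redW x * T.redW y = 1 := by
    rw [← map_mul, show x * y = 1 from Subtype.ext (by
      push_cast
      rw [hy, mul_inv_cancel₀ fun h0 => hx ?_]
      rw [show x = 0 from Subtype.ext h0, map_zero]), map_one]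
  rw [coordUbar, coordUbar, eq_inv_of_mul_eq_one_right h, inv_pow]

variable (T)

/-- The bad reduction data of a twin. -/
def badCurve (x y : T.W) (hy : (y : E) = (x : E)⁻¹) (hx : T.CoordHyp x) (hy' : T.CoordHyp y) :
    BadCurve π F C where
  toBadBase := T.badBase hn hC
  u := T.coordU x
  ubar := T.coordUbar x
  d := Module.finrank k⟮T.coordUbar x⟯ C
  chartFin := T.chart hn hC x hx.frob hx.transcendental hx.transcendentalE hx.finrank_le
    hx.noCancel hx.lift _ rfl
  chartInf := by
    have hu : (T.coordU x)⁻¹ = T.coordU y := by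
      rw [coordU, coordU, hy, map_inv₀, map_inv₀, mul_inv]
    have hxne : T.redW x ≠ 0 := fun h => hx.transcendental (h ▸ isAlgebraic_zero)
    rw [hu, ← CoordHyp.coordUbar_inv hy hxne]
    refine T.chart hn hC y hy'.frob hy'.transcendental hy'.transcendentalE hy'.finrank_le
      hy'.noCancel hy'.lift _ ?_
    rw [CoordHyp.coordUbar_inv hy hxne, FF.finrank_adjoin_inv]
  rrC := exists_riemannRoch_bound
  d_pos := by
    have hub : Transcendental k (T.coordUbar x) := fun h =>
      hx.transcendental (h.of_pow (Nat.succ_pos q))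
    haveI := FF.finiteDimensional_adjoin hub
    exact Module.finrank_pos
  const f hf hf' := exists_eq_algebraMap_of_mem_coordRing
    hx.transcendental_coordU
    hf hf'
  twist n hn' f hf hdiv := exists_twist_bound
    hx.transcendental_coordU
    n hn' f hf hdiv

theorem badCurve_sym {x y : T.W} (hy : (y : E) = (x : E)⁻¹) (hx : T.CoordHyp x)
    (hy' : T.CoordHyp y) {σ : SemilinearAut L F} (hσ : T.IsCoeffwise σ) (χ : k ≃+* k)
    (hχ : ∀ c : A, π ⟨_, hσ.base_mem c⟩ = χ (π c))
    (hu : σ • T.coordU x = T.coordU x) :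
    (T.badCurve hn hC x y hy hx hy').Sym σ (coeffRingEquiv hC χ) where
  map_u := hu
  mem i f hf := (hσ.red χ hχ (i := i) (r := ((T.resC i ⟨f, hf⟩ : C) : LaurentSeries k))
    ⟨hf, rfl⟩).1
  red_eq i f hf := by
    have h : T.Red i f ((T.resC i ⟨f, hf⟩ : C) : LaurentSeries k) := ⟨hf, rfl⟩
    show (T.twoBranch hn).red i (σ • f) = coeffRingEquiv hC χ ((T.twoBranch hn).red i f)
    rw [T.twoBranch_red_eq hn h]
    exact T.twoBranch_red_eq hn (hσ.red χ hχ h)

end Twin

end Fermat.Agent.BAD
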