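import Fermat.Agent.BAD.Twin.Charts
import Fermat.Agent.BAD.Monodromy
import Fermat.Agent.FF.Along

/-!
# The two-component datum of a twin, inertia and Frobenius
-/

set_option autoImplicit false
set_option linter.unusedSectionVars false
set_option linter.style.haveILetI false

noncomputable section

open AlgebraicCurve ModularCurve

namespace Fermat.Agent.BAD

namespace Twin

variable {L k : Type} [Field L] [Field k] {A : ValuationSubring L} {π : A →+* k} {q : ℕ}
  [NeZero q] {F E : Type} [Field F] [Field E] [Algebra L F] [Algebra L E]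
  {C : IntermediateField k (LaurentSeries k)} (T : Twin π q F E C)
  [Fact q.Prime] [CharP k q] [PerfectRing k q] (hC : CoeffStable C)

include T in
theorem exists_dvd_pow {a c : A} (ha : π a = 0) (hc : (c : L) ≠ 0) : ∃ n, c ∣ a ^ n := by
  obtain ⟨N, hN⟩ := T.arch a (T.mem_nonunits_of_π_eq_zero ha) c hc
  refine ⟨N, ⟨_, hN⟩, Subtype.ext ?_⟩
  push_cast
  rw [mul_div_cancel₀ _ hc]

theorem coeffMap_frobenius_serW :
    coeffMap (frobenius k q) (T.serW T.jW) = T.serW T.jW := by
  refine (qExpand k q).injective ?_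
  rw [← RED.Spec.laurentSeries_pow_char q]
  exact T.jW_frob.symm

theorem tau_redW_jW : tau (q := q) hC • T.redW T.jW = T.redW T.jW := by
  apply Subtype.ext
  rw [tau, coe_coeffSemilinear_smul]
  refine Eq.trans ?_ T.coeffMap_frobenius_serW
  exact coeffMap_congr (RingHom.ext fun x => frobeniusEquiv_apply k q x) _

theorem pow_ne_redW_jW (b : C) : b ^ q ≠ T.redW T.jW := by
  intro h
  have h' : (b : LaurentSeries k) ^ q = T.serW T.jW := by
    rw [serW, ← h, SubmonoidClass.coe_pow]
  have ho := congrArg HahnSeries.order h'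
  rw [HahnSeries.order_pow, nsmul_eq_mul, show (T.serW T.jW).order = -1 from T.jW_order] at ho
  have h2 : (2 : ℤ) ≤ q := by exact_mod_cast T.two_le
  rcases le_or_gt 0 (b : LaurentSeries k).order with hb | hb <;> nlinarith

theorem mem_branchPair {i : Fin 2} {f : F} {r : LaurentSeries k} (h : T.Red i f r) :
    f ∈ (T.branchPair i).G := h.1

theorem branchPair_red {i : Fin 2} {f : F} {c : C} (h : T.Red i f (c : LaurentSeries k))
    (h' : f ∈ (T.branchPair i).G) : (T.branchPair i).red ⟨f, h'⟩ = c :=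
  (T.resC_eq_iff h' c).mpr h

variable [IsAlgClosed L] [CharZero L] [IsAlgClosed k] [FF.IsFunctionField L F]
  [FF.IsFunctionField L E]

/-- The two-component datum of a twin. -/
def nodal : NodalDatum A π F E C where
  q := q
  hq := Fact.out
  charP := inferInstance
  algClosed := inferInstance
  algClosedResidue := inferInstance
  hπ := T.surjective
  hrank a c ha hc := T.exists_dvd_pow ha hc
  principalF := inferInstance
  constE x hx0 h := by
    obtain ⟨c, hc⟩ : x ∈ (algebraMap L E).range := by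
      by_cases hx : IsAlgebraic L x
      · exact minpoly.mem_range_of_degree_eq_one L x
          (IsAlgClosed.degree_eq_one_of_irreducible L (minpoly.irreducible hx.isIntegral))
      · obtain ⟨v, hv⟩ := FF.exists_place_ord_neg (K := L) hx
        exact absurd hv (by rw [h v]; exact lt_irrefl 0)
    exact ⟨c, hc.symm⟩
  PE := T.levelPair
  P₁ := T.branchPair 0
  P₂ := T.branchPair 1
  τ := tau hC
  τ_base := tau_base hC
  α := T.a
  β := T.b
  integralα := FF.isIntegral_of_finiteAlong T.finite_a
  integralβ := FF.isIntegral_of_finiteAlong T.finite_b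
  finiteα := T.finite_a
  finiteβ := T.finite_b
  finrankα := T.finrank_a
  finrankβ := T.finrank_b
  normα := FF.normFormulaAlong_of_isFunctionField T.a
  normβ := FF.normFormulaAlong_of_isFunctionField T.b
  α_mem₁ x := T.mem_branchPair (T.red0_a x)
  α_red₁ x := T.branchPair_red (T.red0_a x) _
  α_mem₂ x := T.mem_branchPair (T.red1_a x)
  α_red₂ x := by
    refine (T.branchPair_red (c := T.relFrob (T.redW x)) ?_ _).trans (T.relFrob_eq hC _)
    exact T.red1_a x
  β_mem₁ x := T.mem_branchPair (T.red0_b x)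
  β_red₁ x := by
    refine (T.branchPair_red (c := T.relFrob (T.redW x)) ?_ _).trans (T.relFrob_eq hC _)
    exact T.red0_b x
  β_mem₂ x := T.mem_branchPair (T.red1_b x)
  β_red₂ x := T.branchPair_red (T.red1_b x) _
  jE := T.jW
  τ_J := T.tau_redW_jW hC
  J_not_pow := T.pow_ne_redW_jW

@[simp] theorem nodal_q : (T.nodal hC).q = q := rfl

theorem nodal_α : (T.nodal hC).α = T.a := rfl

theorem nodal_β : (T.nodal hC).β = T.b := rfl

theorem nodal_τ : (T.nodal hC).τ = tau hC := rfl

variable {T}

/-- A coefficientwise automorphism acts on the reductions through the residue action. -/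
theorem IsCoeffwise.redAction {σ : SemilinearAut L F} (hσ : T.IsCoeffwise σ) (χ : k ≃+* k)
    (hχ : ∀ c : A, π ⟨_, hσ.base_mem c⟩ = χ (π c)) :
    (T.nodal hC).RedAction σ (coeffSemilinear hC χ) where
  base_mem := hσ.base_mem
  base_map := hχ
  mem₁ x := T.mem_branchPair (hσ.red χ hχ
    (r := ((T.resC 0 x : C) : LaurentSeries k)) (⟨x.2, rfl⟩ : T.Red 0 (x : F) _))
  red₁ x := T.branchPair_red (hσ.red χ hχ
    (r := ((T.resC 0 x : C) : LaurentSeries k)) (⟨x.2, rfl⟩ : T.Red 0 (x : F) _)) _
  mem₂ x := T.mem_branchPair (hσ.red χ hχ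
    (r := ((T.resC 1 x : C) : LaurentSeries k)) (⟨x.2, rfl⟩ : T.Red 1 (x : F) _))
  red₂ x := T.branchPair_red (hσ.red χ hχ
    (r := ((T.resC 1 x : C) : LaurentSeries k)) (⟨x.2, rfl⟩ : T.Red 1 (x : F) _)) _

variable (hn : ∃ x ∈ A.nonunits, x ≠ 0) [FF.IsFunctionField k C]
  {x y : T.W} (hy : (y : E) = (x : E)⁻¹) (hx : T.CoordHyp x) (hy' : T.CoordHyp y)

/-- The curve data and the two-component datum describe the same reductions. -/
theorem links : Links (T.badCurve hn hC x y hy hx hy') (T.nodal hC) where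
  q_eq := rfl
  Φ_eq c := by
    rw [NodalDatum.φ_apply]
    exact T.relFrob_eq hC c
  mem₁ _ := Iff.rfl
  mem₂ _ := Iff.rfl
  red₁ _ h := (T.twoBranch hn).red_of_mem h
  red₂ _ h := (T.twoBranch hn).red_of_mem h

theorem coeffRingEquiv_refl : coeffRingEquiv hC (RingEquiv.refl k) = RingEquiv.refl C :=
  RingEquiv.ext fun c => Subtype.ext
    ((coeffMap_congr (g := RingHom.id k) (RingHom.ext fun _ => rfl) _).trans (coeffMap_id _))

include hC hn hy hx hy' in
/-- Inertia satisfies `(σ - 1)² = 0` on torsion prime to `q`. -/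
theorem inertia_sq {σ : SemilinearAut L F} (hσ : T.IsCoeffwise σ)
    (hχ : ∀ c : A, π ⟨_, hσ.base_mem c⟩ = π c) (hu : σ • T.coordU x = T.coordU x)
    {n : ℕ} (hn' : (n : k) ≠ 0) {z : Pic0 L F} (hz : n • z = 0) :
    σ • (σ • z - z) = σ • z - z := by
  have hsym := T.badCurve_sym hn hC hy hx hy' hσ (RingEquiv.refl k) hχ hu
  rw [coeffRingEquiv_refl] at hsym
  exact (T.badCurve hn hC x y hy hx hy').inertia_sub_one_sq hsym hn' hz

include hC hn hy hx hy' in
/-- A Frobenius satisfies `(σ² - q²)(σ² - 1) = 0` on new torsion prime to `q`. -/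
theorem frobenius_relation {σ : SemilinearAut L F} (hσ : T.IsCoeffwise σ)
    (hχ : ∀ c : A, π ⟨_, hσ.base_mem c⟩ = π c ^ q) (hu : σ • T.coordU x = T.coordU x)
    {n : ℕ} (hn' : (n : k) ≠ 0) {z : Pic0 L F} (hz : n • z = 0)
    (hnew : (T.nodal hC).IsPushTrivial z) :
    σ • σ • (σ • σ • z - z) = (q ^ 2) • (σ • σ • z - z) := by
  have hact : (T.nodal hC).RedAction σ (T.nodal hC).τ := hσ.redAction hC (frobeniusEquiv k q)
    fun c => (hχ c).trans (frobeniusEquiv_apply k q _).symm
  exact BadCurve.frobenius_sq_relation _ (links hC hn hy hx hy') hact hu hn' hz hnew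

end Twin

end Fermat.Agent.BAD
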