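import Fermat.Agent.BAD.Gauss
import Fermat.Agent.BAD.Branches
import Fermat.Prelude.Def_AlgebraicCurve_Correspondence
import Fermat.Prelude.Thm_ModularCurve_coeffMap_qExpand

/-!
# Two expansions exchanging two degeneracy maps

Abstract setting of `X₀(M q)` over `X₀(M)`: a field `F` with two embeddings into `L((Q))` and two
maps `a`, `b` from `E`, such that the expansions of `a x` are `x(Q)`, `x(Q^q)` and those of `b x`
are `x(Q^q)`, `x(Q)`.
-/

set_option autoImplicit false
set_option linter.unusedSectionVars false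
set_option linter.style.haveILetI false

noncomputable section

open AlgebraicCurve ModularCurve

namespace Fermat.Agent.BAD

/-- The data. -/
structure Twin {L k : Type} [Field L] [Field k] {A : ValuationSubring L} (π : A →+* k) (q : ℕ) [NeZero q]
    (F E : Type)
    [Field F] [Field E] [Algebra L F] [Algebra L E]
    (C : IntermediateField k (LaurentSeries k)) where
  eE : E →ₐ[L] LaurentSeries L
  e : Fin 2 → (F →ₐ[L] LaurentSeries L)
  a : E →ₐ[L] F
  b : E →ₐ[L] F
  e0a : ∀ x, e 0 (a x) = eE x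
  e0b : ∀ x, e 0 (b x) = qExpand L q (eE x)
  e1a : ∀ x, e 1 (a x) = qExpand L q (eE x)
  e1b : ∀ x, e 1 (b x) = eE x
  scalable : ∀ i, Gauss.Scalable π (e i)
  arch : ∀ x ∈ A.nonunits, ∀ c : L, c ≠ 0 → ∃ N : ℕ, x ^ N / c ∈ A
  surjective : Function.Surjective π
  W : ValuationSubring E
  redW : W →+* C
  algebraMap_memW : ∀ c : A, algebraMap L E (c : L) ∈ W
  red_algebraMapW : ∀ c : A,
    redW ⟨algebraMap L E (c : L), algebraMap_memW c⟩ = algebraMap k C (π c)
  inv_memW : ∀ u : W, redW u ≠ 0 → (u : E)⁻¹ ∈ W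
  scaleW : ∀ x : E, x ≠ 0 → ∃ (c : L) (u : W), redW u ≠ 0 ∧ x = c • (u : E)
  isFrac : ∀ x : W, ∃ y z : LaurentSeries A, Gauss.IsFrac π y z (eE x) ∧
    ((redW x : C) : LaurentSeries k) =
      coeffMap π y / coeffMap π z
  qExpand_mem : ∀ c ∈ C, qExpand k q c ∈ C
  jW : W
  jW_order : ((redW jW : C) : LaurentSeries k).order = -1
  jW_ne : ((redW jW : C) : LaurentSeries k) ≠ 0
  jW_frob : qExpand k q ((redW jW : C) : LaurentSeries k) =
    ((redW jW : C) : LaurentSeries k) ^ q
  two_le : 2 ≤ q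
  finite_a : FiniteAlong L a
  finite_b : FiniteAlong L b
  finrank_a : finrankAlong L a = q + 1
  finrank_b : finrankAlong L b = q + 1

namespace Twin

variable {L k : Type} [Field L] [Field k] {A : ValuationSubring L} {π : A →+* k} {q : ℕ} [NeZero q] {F E : Type}
  [Field F] [Field E] [Algebra L F] [Algebra L E]
  {C : IntermediateField k (LaurentSeries k)} (T : Twin π q F E C)

include T in
theorem π_eq_zero {c : L} (hc : c ∈ A.nonunits) : π ⟨c, A.nonunits_subset hc⟩ = 0 := by
  haveI := RingHom.ker_isMaximal_of_surjective π T.surjective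
  obtain ⟨h, hm⟩ := (A.mem_nonunits_iff_exists_mem_maximalIdeal).mp hc
  rwa [← IsLocalRing.eq_maximalIdeal this, RingHom.mem_ker] at hm

include T in
theorem mem_nonunits_of_π_eq_zero {c : A} (hc : π c = 0) : (c : L) ∈ A.nonunits := by
  haveI := RingHom.ker_isMaximal_of_surjective π T.surjective
  rw [← RingHom.mem_ker, IsLocalRing.eq_maximalIdeal this] at hc
  exact A.coe_mem_nonunits_iff.mpr hc

/-- The valuation ring of a branch. -/
def branch (i : Fin 2) : ValuationSubring F := Gauss.valRing (T.scalable i)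

/-- The residue map of a branch, with values in series. -/
def branchRed (i : Fin 2) : T.branch i →+* LaurentSeries k := Gauss.valRed (T.scalable i)

/-- `f` is integral on branch `i` with reduction `r`. -/
def Red (i : Fin 2) (f : F) (r : LaurentSeries k) : Prop :=
  ∃ h : f ∈ T.branch i, T.branchRed i ⟨f, h⟩ = r

theorem red_of_isFrac {i : Fin 2} {f : F} {y z : LaurentSeries A}
    (h : Gauss.IsFrac π y z (T.e i f)) :
    T.Red i f (coeffMap π y / coeffMap π z) :=
  ⟨⟨y, z, h⟩, Gauss.valRed_of_isFrac _ h _⟩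

theorem isFrac_qExpand {y z : LaurentSeries A} {s : LaurentSeries L}
    (h : Gauss.IsFrac π y z s) :
    Gauss.IsFrac π (qExpand A q y) (qExpand A q z) (qExpand L q s) := by
  refine ⟨?_, ?_⟩
  · rw [coeffMap_qExpand]
    exact fun h0 => h.1 ((qExpand k q).injective (h0.trans (map_zero _).symm))
  · rw [coeffMap_qExpand, coeffMap_qExpand, ← map_mul, h.2]

/-- The series of the residue of a function of level `M`. -/
def serW (x : T.W) : LaurentSeries k := ((T.redW x : C) : LaurentSeries k)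

theorem serW_mem (x : T.W) : T.serW x ∈ C := (T.redW x).2

theorem red0_a (x : T.W) : T.Red 0 (T.a x) (T.serW x) := by
  obtain ⟨y, z, h, hr⟩ := T.isFrac x
  rw [serW, hr]
  exact T.red_of_isFrac (by rw [T.e0a]; exact h)

theorem red1_b (x : T.W) : T.Red 1 (T.b x) (T.serW x) := by
  obtain ⟨y, z, h, hr⟩ := T.isFrac x
  rw [serW, hr]
  exact T.red_of_isFrac (by rw [T.e1b]; exact h)

theorem red0_b (x : T.W) : T.Red 0 (T.b x) (qExpand k q (T.serW x)) := by
  obtain ⟨y, z, h, hr⟩ := T.isFrac x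
  rw [serW, hr, map_div₀, ← coeffMap_qExpand, ← coeffMap_qExpand]
  exact T.red_of_isFrac (by rw [T.e0b]; exact isFrac_qExpand h)

theorem red1_a (x : T.W) : T.Red 1 (T.a x) (qExpand k q (T.serW x)) := by
  obtain ⟨y, z, h, hr⟩ := T.isFrac x
  rw [serW, hr, map_div₀, ← coeffMap_qExpand, ← coeffMap_qExpand]
  exact T.red_of_isFrac (by rw [T.e1a]; exact isFrac_qExpand h)

variable {T}

theorem Red.unique {i : Fin 2} {f : F} {r r' : LaurentSeries k}
    (h : T.Red i f r) (h' : T.Red i f r') : r = r' := h.2.symm.trans h'.2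

theorem Red.add {i : Fin 2} {f g : F} {r s : LaurentSeries k}
    (h : T.Red i f r) (h' : T.Red i g s) : T.Red i (f + g) (r + s) :=
  ⟨add_mem h.1 h'.1, by rw [← h.2, ← h'.2, ← map_add]; rfl⟩

theorem Red.sub {i : Fin 2} {f g : F} {r s : LaurentSeries k}
    (h : T.Red i f r) (h' : T.Red i g s) : T.Red i (f - g) (r - s) :=
  ⟨sub_mem h.1 h'.1, by rw [← h.2, ← h'.2, ← map_sub]; rfl⟩

theorem Red.mul {i : Fin 2} {f g : F} {r s : LaurentSeries k}
    (h : T.Red i f r) (h' : T.Red i g s) : T.Red i (f * g) (r * s) :=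
  ⟨mul_mem h.1 h'.1, by rw [← h.2, ← h'.2, ← map_mul]; rfl⟩

theorem Red.pow {i : Fin 2} {f : F} {r : LaurentSeries k}
    (h : T.Red i f r) (n : ℕ) : T.Red i (f ^ n) (r ^ n) :=
  ⟨pow_mem h.1 n, by rw [← h.2, ← map_pow]; rfl⟩

theorem red_algebraMap (i : Fin 2) (c : A) :
    T.Red i (algebraMap L F (c : L))
      (algebraMap k (LaurentSeries k) (π c)) :=
  ⟨Gauss.algebraMap_mem_valRing (T.scalable i) c, Gauss.valRed_algebraMap (T.scalable i) c⟩

theorem red_one (i : Fin 2) : T.Red i 1 1 :=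
  ⟨one_mem _, map_one (T.branchRed i)⟩

theorem Red.ne_zero {i : Fin 2} {f : F} {r : LaurentSeries k}
    (h : T.Red i f r) (hr : r ≠ 0) : f ≠ 0 := by
  rintro rfl
  exact hr (h.2.symm.trans (map_zero (T.branchRed i)))

theorem Red.inv {i : Fin 2} {f : F} {r : LaurentSeries k}
    (h : T.Red i f r) (hr : r ≠ 0) : T.Red i f⁻¹ r⁻¹ := by
  have hf := h.ne_zero hr
  obtain ⟨hm, hred⟩ := h
  have hmem : f⁻¹ ∈ T.branch i := by
    rw [branch, Gauss.mem_valRing, map_inv₀]
    exact Gauss.inv_mem_gaussRing (y := ⟨_, hm⟩) (by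
      rw [← hred] at hr
      exact hr)
  refine ⟨hmem, eq_inv_of_mul_eq_one_left ?_⟩
  rw [← hred, ← map_mul, show (⟨f⁻¹, hmem⟩ : T.branch i) * ⟨f, hm⟩ = 1 from
    Subtype.ext (inv_mul_cancel₀ hf), map_one]

variable (T)

theorem exists_scale (i : Fin 2) {f : F} (hf : f ≠ 0) :
    ∃ (c : L) (u : F) (r : LaurentSeries k), c ≠ 0 ∧ r ≠ 0 ∧ T.Red i u r ∧
      f = algebraMap L F c * u := by
  obtain ⟨c, h, hr⟩ := Gauss.exists_scale_valRed (T.scalable i) hf
  have hc : c ≠ 0 := by
    rintro rfl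
    exact hr (by rw [show (⟨_, h⟩ : Gauss.valRing (T.scalable i)) = 0 from
      Subtype.ext (zero_smul L f), map_zero])
  refine ⟨c⁻¹, c • f, _, inv_ne_zero hc, hr, ⟨h, rfl⟩, ?_⟩
  rw [← Algebra.smul_def, inv_smul_smul₀ hc]

/-- Multiplying by a high power of an element vanishing on a branch gives something vanishing
there. -/
theorem exists_shrink (i : Fin 2) {w : F} (hw : T.Red i w 0) (y : F) :
    ∃ N : ℕ, ∀ m, N ≤ m → T.Red i (y * w ^ m) 0 := by
  have hz : T.Red i 0 0 := ⟨zero_mem _, map_zero _⟩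
  rcases eq_or_ne y 0 with rfl | hy
  · exact ⟨0, fun m _ => by simpa using hz⟩
  rcases eq_or_ne w 0 with rfl | hw0
  · exact ⟨1, fun m hm => by simpa [zero_pow (by omega : m ≠ 0)] using hz⟩
  obtain ⟨c, u, r, hc, -, hu, rfl⟩ := T.exists_scale i hy
  obtain ⟨d, v, s, hd, hs, hv, rfl⟩ := T.exists_scale i hw0
  have hdn : d ∈ A.nonunits := by
    by_cases hdA : d ∈ A
    · refine T.mem_nonunits_of_π_eq_zero (c := ⟨d, hdA⟩) ?_
      have h := ((red_algebraMap (T := T) i ⟨d, hdA⟩).mul hv).unique hw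
      rw [mul_eq_zero, map_eq_zero] at h
      exact h.resolve_right hs
    · exfalso
      have hdi : d⁻¹ ∈ A := (A.mem_or_inv_mem d).resolve_left hdA
      have h := (red_algebraMap (T := T) i ⟨d⁻¹, hdi⟩).mul hw
      rw [mul_zero, show algebraMap L F ((⟨d⁻¹, hdi⟩ : A) : L) * (algebraMap L F d * v) = v by
        rw [← mul_assoc, ← map_mul, show ((⟨d⁻¹, hdi⟩ : A) : L) * d = 1 from inv_mul_cancel₀ hd,
          map_one, one_mul]] at h
      exact hs (hv.unique h)
  obtain ⟨N, hN⟩ := T.arch d hdn c⁻¹ (inv_ne_zero hc)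
  refine ⟨N + 1, fun m hm => ?_⟩
  obtain ⟨l, rfl⟩ : ∃ l, m = l + 1 + N := ⟨m - (N + 1), by omega⟩
  have hdA : d ∈ A := A.nonunits_subset hdn
  have h0 : π ⟨d, hdA⟩ = 0 := T.π_eq_zero hdn
  set a' : A := (⟨d, hdA⟩ : A) ^ (l + 1) * ⟨_, hN⟩ with ha'
  have hcoe : (a' : L) = d ^ (l + 1) * (d ^ N / c⁻¹) := by
    rw [ha', MulMemClass.coe_mul, SubmonoidClass.coe_pow]
  have hkey : algebraMap L F c * u * (algebraMap L F d * v) ^ (l + 1 + N) =
      algebraMap L F (a' : L) * (u * v ^ (l + 1 + N)) := by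
    rw [hcoe, mul_pow, ← map_pow, mul_mul_mul_comm, ← map_mul]
    congr 2
    rw [div_inv_eq_mul]; ring
  rw [hkey]
  have := (red_algebraMap (T := T) i a').mul (hu.mul (hv.pow (l + 1 + N)))
  rwa [ha', map_mul, map_pow, h0, zero_pow (Nat.succ_ne_zero l), zero_mul, map_zero, zero_mul]
    at this

/-- The powers of `j` are independent over series in `Q ^ q`. -/
theorem jW_indep (g : Fin q → LaurentSeries k)
    (h : ∑ x, qExpand k q (g x) * T.serW T.jW ^ (x : ℕ) = 0) : ∀ x, g x = 0 := by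
  intro x
  have := eq_zero_of_sum_mul_pow T.jW_ne T.jW_order (fun x => qExpand k q (g x))
    (fun x i hi => qExpand_coeff_of_not_dvd q _ hi) h x
  exact (qExpand k q).injective (this.trans (map_zero _).symm)

/-- General form of the bound on residues: `γ` reduces to the identity on branch `i` and to
`Q ↦ Q^q` on branch `i'`, `γ'` the other way round. -/
theorem mem_of_red_aux {i i' : Fin 2} (γ γ' : E →ₐ[L] F)
    (hfin : FiniteAlong L γ) (hdeg : finrankAlong L γ = q + 1)
    (h1 : ∀ x : T.W, T.Red i (γ x) (T.serW x))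
    (h2 : ∀ x : T.W, T.Red i' (γ x) (qExpand k q (T.serW x)))
    (h3 : ∀ x : T.W, T.Red i (γ' x) (qExpand k q (T.serW x)))
    (h4 : ∀ x : T.W, T.Red i' (γ' x) (T.serW x))
    {f : F} {r : LaurentSeries k} (hf : T.Red i f r) : r ∈ C := by
  letI := algebraAlong γ
  haveI : FiniteDimensional E F := hfin
  by_contra hr
  have hV : ∀ c : T.W, algebraMap E F (c : E) ∈ T.branch i := fun c => (h1 c).1
  have hV' : ∀ c : T.W, algebraMap E F (c : E) ∈ T.branch i' := fun c => (h2 c).1
  have hc1 : ∀ c : T.W, T.branchRed i ⟨algebraMap E F (c : E), hV c⟩ = T.serW c := fun c => (h1 c).2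
  have hc2 : ∀ c : T.W, T.branchRed i' ⟨algebraMap E F (c : E), hV' c⟩ =
      qExpand k q (T.serW c) := fun c => (h2 c).2
  set J := T.serW T.jW with hJ
  have hJq : qExpand k q J = J ^ q := T.jW_frob
  have hJne : J ^ (q * q) ≠ J := fun h => by
    have := congrArg HahnSeries.order h
    rw [HahnSeries.order_pow, show J.order = -1 from T.jW_order, nsmul_eq_mul] at this
    have h2 := T.two_le
    push_cast at this
    nlinarith
  -- separating elements
  have he0 : T.Red i (γ T.jW - γ' T.jW ^ q) (J - J ^ (q * q)) := by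
    have := (h1 T.jW).sub ((h3 T.jW).pow q)
    rwa [hJq, ← pow_mul] at this
  have he0' : T.Red i' (γ T.jW - γ' T.jW ^ q) 0 := by
    have := (h2 T.jW).sub ((h4 T.jW).pow q)
    rwa [hJq, sub_self] at this
  have he1 : T.Red i' (γ' T.jW - γ T.jW ^ q) (J - J ^ (q * q)) := by
    have := (h4 T.jW).sub ((h2 T.jW).pow q)
    rwa [hJq, ← pow_mul] at this
  have he1' : T.Red i (γ' T.jW - γ T.jW ^ q) 0 := by
    have := (h3 T.jW).sub ((h1 T.jW).pow q)
    rwa [hJq, sub_self] at this
  -- residues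
  let w₀ : Fin 2 → T.branch i := ![1, ⟨f, hf.1⟩]
  let w₁ : Fin q → T.branch i' := fun x => (⟨γ' T.jW, (h4 T.jW).1⟩ : T.branch i') ^ (x : ℕ)
  have hw₀ : ResIndep T.W hV (T.branchRed i) w₀ := by
    intro c hc
    rw [Fin.sum_univ_two] at hc
    simp only [w₀, Matrix.cons_val_zero, Matrix.cons_val_one, map_one, mul_one, hf.2, hc1] at hc
    have hc1' : T.serW (c 1) = 0 := by
      by_contra h0
      refine hr ?_
      rw [show r = -(T.serW (c 0)) / T.serW (c 1) by
        rw [eq_div_iff h0, mul_comm, eq_neg_iff_add_eq_zero, add_comm]; exact hc]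
      exact div_mem (neg_mem (T.serW_mem _)) (T.serW_mem _)
    have hc0' : T.serW (c 0) = 0 := by simpa [hc1'] using hc
    intro x
    rw [hc1]
    fin_cases x
    · exact hc0'
    · exact hc1'
  have hw₁ : ResIndep T.W hV' (T.branchRed i') w₁ := by
    intro c hc x
    simp only [w₁, map_pow, (h4 T.jW).2, hc2] at hc
    rw [hc2, T.jW_indep (fun x => T.serW (c x)) hc x, map_zero]
  have := card_add_card_le_finrank T.W (hV₀ := hV) (hV₁ := hV') (ρ₀ := T.branchRed i)
    (ρ₁ := T.branchRed i') he0.1 (by rw [he0.2]; exact sub_ne_zero.mpr hJne.symm)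
    he1.1 (by rw [he1.2]; exact sub_ne_zero.mpr hJne.symm)
    (fun y => by
      obtain ⟨N, hN⟩ := T.exists_shrink i' he0' (y : F)
      exact ⟨N, fun m hm => hN m hm⟩)
    (fun y => by
      obtain ⟨N, hN⟩ := T.exists_shrink i he1' (y : F)
      exact ⟨N, fun m hm => hN m hm⟩) hw₀ hw₁
  rw [Fintype.card_fin, Fintype.card_fin, show Module.finrank E F = q + 1 from hdeg] at this
  omega

/-- The residues on both branches lie in `C`. -/
theorem Red.mem {i : Fin 2} {f : F} {r : LaurentSeries k} (hf : T.Red i f r) : r ∈ C := by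
  fin_cases i
  · exact T.mem_of_red_aux T.a T.b T.finite_a T.finrank_a T.red0_a T.red1_a T.red0_b T.red1_b hf
  · exact T.mem_of_red_aux T.b T.a T.finite_b T.finrank_b T.red1_b T.red0_b T.red1_a T.red0_a hf

end Twin

end Fermat.Agent.BAD
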