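import Fermat.Agent.BAD.Gauss
import Fermat.Agent.RED.LaurentRed

/-!
# The constant reduction of a field of series is the Gauss reduction
-/

set_option autoImplicit false

noncomputable section

open ModularCurve

namespace Fermat.Agent.BAD.Gauss

variable {L k : Type*} [Field L] [Field k] {A : ValuationSubring L} {π : A →+* k}
variable {E : IntermediateField L (LaurentSeries L)} {Eb : IntermediateField k (LaurentSeries k)}
  {y₀ : RED.pairs π E Eb}

theorem exists_isFrac_of_constRed (h : (RED.laurentMaps π E Eb).Good y₀) (x : h.constRed.W) :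
    ∃ y z : LaurentSeries A, IsFrac π y z (((x : h.constRed.W) : E) : LaurentSeries L) ∧
      ((h.constRed.red x : Eb) : LaurentSeries k) = coeffMap π y / coeffMap π z := by
  obtain ⟨y, z, hz, he, hr⟩ := h.exists_pairs_of_mem x.2
  refine ⟨y, z, ⟨fun h0 => hz (Subtype.ext h0), ?_⟩, ?_⟩
  · rw [mul_comm]
    exact congrArg Subtype.val he
  · exact congrArg Subtype.val hr

end Fermat.Agent.BAD.Gauss
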