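import Fermat.Agent.BAD.Twin.Basic
import Fermat.Agent.BAD.Core.Curve
import Fermat.Agent.BAD.Datum
import Fermat.Agent.RED.Specialization.FrobSeries
import Mathlib.FieldTheory.Perfect

/-!
# The branches of a twin as a base of bad reduction data

The residues in `C`, the relative Frobenius `c ↦ c(Q ^ q)`, the coefficient Frobenius and the
action of coefficientwise automorphisms.
-/

set_option autoImplicit false
set_option linter.unusedSectionVars false
set_option linter.style.haveILetI false

noncomputable section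

open AlgebraicCurve ModularCurve

namespace Fermat.Agent.BAD

section CoeffAut

variable {k : Type*} [Field k] (C : IntermediateField k (LaurentSeries k))

/-- `C` is stable under all coefficientwise ring endomorphisms. -/
def CoeffStable : Prop := ∀ (φ : k →+* k), ∀ c ∈ C, coeffMap φ c ∈ C

variable {C} (hC : CoeffStable C)

/-- An automorphism of the constants acting on coefficients. -/
def coeffRingEquiv (φ : k ≃+* k) : C ≃+* C where
  toFun x := ⟨coeffMap (φ : k →+* k) x, hC _ _ x.2⟩
  invFun x := ⟨coeffMap (φ.symm : k →+* k) x, hC _ _ x.2⟩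
  left_inv x := Subtype.ext <| by
    show coeffMap (φ.symm : k →+* k) (coeffMap (φ : k →+* k) (x : LaurentSeries k)) = _
    rw [coeffMap_coeffMap, coeffMap_congr (g := RingHom.id k) (RingHom.ext φ.symm_apply_apply),
      coeffMap_id]
  right_inv x := Subtype.ext <| by
    show coeffMap (φ : k →+* k) (coeffMap (φ.symm : k →+* k) (x : LaurentSeries k)) = _
    rw [coeffMap_coeffMap, coeffMap_congr (g := RingHom.id k) (RingHom.ext φ.apply_symm_apply),
      coeffMap_id]
  map_mul' x y := Subtype.ext (map_mul (coeffMap (φ : k →+* k)) _ _)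
  map_add' x y := Subtype.ext (map_add (coeffMap (φ : k →+* k)) _ _)

/-- An automorphism of the constants acting on coefficients, as a semilinear automorphism. -/
def coeffSemilinear (φ : k ≃+* k) : SemilinearAut k C :=
  ⟨(coeffRingEquiv hC φ, φ), fun a => Subtype.ext (coeffMap_algebraMap (φ : k →+* k) a)⟩

theorem coe_coeffSemilinear_smul (φ : k ≃+* k) (x : C) :
    ((coeffSemilinear hC φ • x : C) : LaurentSeries k) = coeffMap (φ : k →+* k) x := rfl

theorem coe_coeffSemilinear_inv_smul (φ : k ≃+* k) (x : C) :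
    (((coeffSemilinear hC φ)⁻¹ • x : C) : LaurentSeries k) =
      coeffMap (φ.symm : k →+* k) x := rfl

theorem coeffSemilinear_refl : coeffSemilinear hC (RingEquiv.refl k) = 1 := by
  refine Subtype.ext (Prod.ext (RingEquiv.ext fun x => Subtype.ext ?_) rfl)
  show coeffMap ((RingEquiv.refl k : k ≃+* k) : k →+* k) (x : LaurentSeries k) = _
  exact (coeffMap_congr (g := RingHom.id k) (RingHom.ext fun _ => rfl) _).trans (coeffMap_id _)

end CoeffAut

namespace Twin

variable {L k : Type} [Field L] [Field k] {A : ValuationSubring L} {π : A →+* k} {q : ℕ} [NeZero q] {F E : Type}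
  [Field F] [Field E] [Algebra L F] [Algebra L E]
  {C : IntermediateField k (LaurentSeries k)} (T : Twin π q F E C)

/-- The residue map of a branch with values in `C`. -/
def resC (i : Fin 2) : T.branch i →+* C :=
  (T.branchRed i).codRestrict C fun f => Twin.Red.mem (T := T) (i := i) (f := (f : F)) ⟨f.2, rfl⟩

theorem coe_resC (i : Fin 2) (f : T.branch i) :
    ((T.resC i f : C) : LaurentSeries k) = T.branchRed i f := rfl

theorem resC_eq_iff {i : Fin 2} {f : F} (h : f ∈ T.branch i) (c : C) :
    T.resC i ⟨f, h⟩ = c ↔ T.Red i f (c : LaurentSeries k) :=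
  ⟨fun e => ⟨h, by rw [← coe_resC, e]⟩, fun ⟨_, e⟩ => Subtype.ext e⟩

theorem resC_algebraMap (i : Fin 2) (c : A) :
    T.resC i ⟨algebraMap L F (c : L), (red_algebraMap (T := T) i c).1⟩ =
      algebraMap k C (π c) :=
  (T.resC_eq_iff _ _).mpr (red_algebraMap i c)

theorem resC_scale (i : Fin 2) (f : F) (hf : f ≠ 0) :
    ∃ (c : L) (h : c • f ∈ T.branch i), T.resC i ⟨c • f, h⟩ ≠ 0 := by
  obtain ⟨c, u, r, hc, hr, hu, rfl⟩ := T.exists_scale i hf
  have he : c⁻¹ • (algebraMap L F c * u) = u := by
    rw [← Algebra.smul_def, inv_smul_smul₀ hc]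
  refine ⟨c⁻¹, he.symm ▸ hu.1, fun h0 => hr ?_⟩
  have := (T.resC_eq_iff _ _).mp h0
  rw [he] at this
  exact hu.unique this

variable (hn : ∃ x ∈ A.nonunits, x ≠ 0)

/-- The two branches. -/
def twoBranch : TwoBranch π F C where
  hπ := T.surjective
  V i := (T.branch i).toSubring
  res i := T.resC i
  algebraMap_mem i c := (red_algebraMap (T := T) i c).1
  res_algebraMap i c := T.resC_algebraMap i c
  scale i f hf := T.resC_scale i f hf
  arch := T.arch
  nontriv := hn

theorem twoBranch_red_eq {i : Fin 2} {f : F} {c : C}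
    (h : T.Red i f (c : LaurentSeries k)) : (T.twoBranch hn).red i f = c :=
  ((T.twoBranch hn).red_of_mem (f := f) h.1).trans ((T.resC_eq_iff h.1 c).mpr h)

theorem mem_twoBranch {i : Fin 2} {f : F} {r : LaurentSeries k} (h : T.Red i f r) :
    f ∈ (T.twoBranch hn).V i := h.1

/-- The relative Frobenius: `c ↦ c(Q ^ q)`. -/
def relFrob : C →ₐ[k] C :=
  ((qExpandAlgHomC k q).comp C.val).codRestrict C.toSubalgebra fun c =>
    T.qExpand_mem _ c.2

theorem coe_relFrob (c : C) :
    ((T.relFrob c : C) : LaurentSeries k) = qExpand k q (c : LaurentSeries k) := rfl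

variable [Fact q.Prime] [CharP k q] [PerfectRing k q] (hC : CoeffStable C)

/-- The coefficient Frobenius. -/
def tau : SemilinearAut k C := coeffSemilinear hC (frobeniusEquiv k q)

theorem tau_base (x : k) : SemilinearAut.baseAut (tau (q := q) hC) x = x ^ q := rfl

theorem relFrob_eq (c : C) : T.relFrob c = ((tau (q := q) hC)⁻¹ • c) ^ q := by
  apply Subtype.ext
  rw [SubmonoidClass.coe_pow, coe_relFrob, tau, coe_coeffSemilinear_inv_smul,
    RED.Spec.laurentSeries_pow_char q, coeffMap_coeffMap]
  congr 1
  conv_lhs => rw [← coeffMap_id (c : LaurentSeries k)]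
  exact coeffMap_congr (RingHom.ext fun x => (frobenius_apply_frobeniusEquiv_symm _ _ x).symm) _

/-- The base of the bad reduction data. -/
def badBase : BadBase π F C where
  toTwoBranch := T.twoBranch hn
  q := q
  two_le_q := T.two_le
  Φ := T.relFrob
  Φ_pow c := ⟨_, T.relFrob_eq hC c⟩

/-- The branch as a scaled residue map. -/
def branchPair (i : Fin 2) : ScalePair A π F C where
  G := (T.branch i).toSubring
  algebraMap_mem c := (red_algebraMap (T := T) i c).1
  red := T.resC i
  red_algebraMap c := T.resC_algebraMap i c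
  inv_mem u hu := by
    have h : T.Red i (u : F) ((T.resC i u : C) : LaurentSeries k) := ⟨u.2, rfl⟩
    exact (h.inv fun h0 => hu (Subtype.ext h0)).1
  exists_eq_smul x hx := by
    obtain ⟨c, u, r, hc, hr, hu, rfl⟩ := T.exists_scale i hx
    refine ⟨c, ⟨u, hu.1⟩, fun h0 => hr ?_, (Algebra.smul_def c u).symm⟩
    exact hu.unique ((T.resC_eq_iff _ _).mp h0)

/-- Level `M` as a scaled residue map. -/
def levelPair : ScalePair A π E C where
  G := T.W.toSubring
  algebraMap_mem := T.algebraMap_memW
  red := T.redW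
  red_algebraMap := T.red_algebraMapW
  inv_mem := T.inv_memW
  exists_eq_smul := T.scaleW

/-- A semilinear automorphism of `F` acting coefficientwise on both expansions. -/
structure IsCoeffwise (σ : SemilinearAut L F) : Prop where
  base_mem : ∀ c : A, SemilinearAut.baseAut σ (c : L) ∈ A
  expand : ∀ (i : Fin 2) (f : F),
    T.e i (σ • f) = coeffMap (SemilinearAut.baseAut σ : L →+* L) (T.e i f)

variable {T} {σ : SemilinearAut L F}

theorem IsCoeffwise.red (hσ : T.IsCoeffwise σ) (χ : k ≃+* k)
    (hχ : ∀ c : A, π ⟨_, hσ.base_mem c⟩ = χ (π c))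
    {i : Fin 2} {f : F} {r : LaurentSeries k} (hf : T.Red i f r) :
    T.Red i (σ • f) (coeffMap (χ : k →+* k) r) := by
  obtain ⟨⟨y, z, h⟩, hr⟩ := id hf
  have hyz : r = coeffMap π y / coeffMap π z :=
    hf.unique (T.red_of_isFrac h)
  let σA : A →+* A := ((SemilinearAut.baseAut σ : L →+* L).comp A.subtype).codRestrict A
    hσ.base_mem
  have h' : Gauss.IsFrac π (coeffMap σA y) (coeffMap σA z) (T.e i (σ • f)) := by
    rw [hσ.expand]
    exact h.map σA _ (χ : k →+* k) (fun c => rfl) hχ
  have := T.red_of_isFrac h'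
  rwa [coeffMap_coeffMap, coeffMap_coeffMap,
    coeffMap_congr (g := (χ : k →+* k).comp π) (RingHom.ext hχ) y,
    coeffMap_congr (g := (χ : k →+* k).comp π) (RingHom.ext hχ) z,
    ← coeffMap_coeffMap, ← coeffMap_coeffMap, ← map_div₀, ← hyz] at this

end Twin

end Fermat.Agent.BAD
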